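import Mathlib
import Fermat.Agent.S41.Coh.CoreData
import Fermat.Agent.S49.Eigenform

/-!
# S41 / WP-F, F1 : a normalised eigenform from a Hecke eigenvector in `V_M`

`exists_normalizedEigenform_of_eigenvector` : a nonzero simultaneous eigenvector `w` of all the
operators `heckePE M ℓ ℂ ℂ` (`T_ℓ` for `ℓ ∤ M`, `U_ℓ` for `ℓ ∣ M`) on
`VC M = Hom_PE(Γ₀(M), ℂ)` gives a normalised eigenform `g ∈ S₂(Γ₀(M))` whose `ℓ`-th coefficient is
the eigenvalue, for EVERY prime `ℓ` (also the primes dividing the level).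

The proof transports `w` to `S₂ × S₂` by the Hecke-equivariant Eichler–Shimura isomorphism
`periodEquiv`, picks a nonzero component, and repeats the proof of
`Fermat.Agent.S49.exists_normalized_eigenform` with the eigen-relations read off directly from the
operators `heckeS2`.
-/

set_option autoImplicit false

open CongruenceSubgroup ModularFormClass UpperHalfPlane

namespace Fermat.Agent.S41.Asm

open Fermat.Agent.ESJ.ParHom Fermat.Agent.S41.Coh Fermat.Agent.S49

/-- A nonzero simultaneous eigenvector in `S₂(Γ₀(M))` of all the operators `heckeS2 M ℓ`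
can be normalised to a normalised eigenform whose `ℓ`-th coefficient is the eigenvalue, for every
prime `ℓ`. -/
theorem exists_normalizedEigenform_of_heckeS2 {M : ℕ} [NeZero M] {v : CuspForm (Gamma0 M) 2}
    (hv : v ≠ 0) (lam : Nat.Primes → ℂ) (h : ∀ ℓ : Nat.Primes, heckeS2 M ℓ v = lam ℓ • v) :
    ∃ g : CuspForm (Gamma0 M) 2, g.IsNormalizedEigenform ∧
      ∀ ℓ : Nat.Primes, qCoeff (⇑g) ℓ = lam ℓ := by
  set e' : ℕ → ℂ := fun ℓ => if ℓ ∣ M then 0 else (ℓ : ℂ) with he'
  -- the eigen-relations on the coefficients of `v`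
  have hrel : ∀ ℓ : Nat.Primes, ∀ n : ℕ,
      qCoeff (⇑v) ((ℓ : ℕ) * n) +
        e' ℓ * (if (ℓ : ℕ) ∣ n then qCoeff (⇑v) (n / (ℓ : ℕ)) else 0) =
        lam ℓ * qCoeff (⇑v) n := by
    intro ℓ n
    have h0 := h ℓ
    by_cases hℓM : (ℓ : ℕ) ∣ M
    · have h1 : ((CuspForm.heckeAlgebra.U ℓ.2 hℓM (Set.notMem_empty _) :
          CuspForm.heckeAlgebra M 2 ∅) : Module.End ℂ (CuspForm (Gamma0 M) 2)) v = lam ℓ • v := by
        rw [← CuspForm.heckeFormsGen_of_dvd (N := M) (k := 2) hℓM]
        exact h0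
      rw [CuspForm.heckeAlgebra.coe_U] at h1
      have h2 := congrArg (fun f : CuspForm (Gamma0 M) 2 => qCoeff (⇑f) n) h1
      simp only [Fermat.Agent.S49.qCoeff_heckeU ℓ.2, Fermat.Agent.S49.qCoeff_smul] at h2
      rw [he']
      simp only [if_pos hℓM, zero_mul, add_zero]
      rw [mul_comm (ℓ : ℕ) n]
      exact h2
    · have h1 : ((CuspForm.heckeAlgebra.T ℓ.2 hℓM (Set.notMem_empty _) :
          CuspForm.heckeAlgebra M 2 ∅) : Module.End ℂ (CuspForm (Gamma0 M) 2)) v = lam ℓ • v := by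
        rw [← CuspForm.heckeFormsGen_of_not_dvd (N := M) (k := 2) hℓM]
        exact h0
      rw [CuspForm.heckeAlgebra.coe_T] at h1
      have h2 := congrArg (fun f : CuspForm (Gamma0 M) 2 => qCoeff (⇑f) n) h1
      simp only [Fermat.Agent.S49.qCoeff_heckeT, Fermat.Agent.S49.qCoeff_smul] at h2
      have h21 : ((2 : ℤ) - 1) = 1 := by norm_num
      rw [h21, zpow_one] at h2
      rw [he']
      simp only [if_neg hℓM]
      rw [mul_comm (ℓ : ℕ) n, ← h2]
      split_ifs <;> simp
  -- the first coefficient does not vanish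
  have hb1 : qCoeff (⇑v) 1 ≠ 0 := by
    intro hb1
    have hall : ∀ n : ℕ, qCoeff (⇑v) n = 0 := by
      intro n
      induction n using Nat.strong_induction_on with
      | _ n ih =>
        rcases Nat.lt_or_ge n 2 with hn | hn
        · interval_cases n
          · exact qCoeff_zero_eq v
          · exact hb1
        · have hp : (n.minFac).Prime := Nat.minFac_prime (by omega)
          have hlam := hrel ⟨n.minFac, hp⟩
          have hm : n = n.minFac * (n / n.minFac) :=
            (Nat.mul_div_cancel' (Nat.minFac_dvd n)).symm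
          have hlt : n / n.minFac < n := Nat.div_lt_self (by omega) hp.one_lt
          have h1 := hlam (n / n.minFac)
          simp only at h1
          rw [← hm, ih _ hlt, mul_zero] at h1
          have h2 : (if n.minFac ∣ n / n.minFac then
              qCoeff (⇑v) (n / n.minFac / n.minFac) else 0) = 0 := by
            split_ifs
            · exact ih _ (lt_of_le_of_lt (Nat.div_le_self _ _) hlt)
            · rfl
          rw [h2, mul_zero, add_zero] at h1
          exact h1
    apply hv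
    apply ext_qCoeff
    intro n
    have h0 : qCoeff (⇑(0 : CuspForm (Gamma0 M) 2)) n = 0 := by
      rw [← qLin_apply, map_zero]
    rw [h0, hall n]
  set b1 := qCoeff (⇑v) 1 with hb1def
  set g : CuspForm (Gamma0 M) 2 := b1⁻¹ • v with hg
  have hc : ∀ n, qCoeff (⇑g) n = b1⁻¹ * qCoeff (⇑v) n := fun n => qCoeff_smul _ _ _
  have hc1 : qCoeff (⇑g) 1 = 1 := by
    rw [hc, ← hb1def, inv_mul_cancel₀ hb1]
  have hrelg : ∀ ℓ : Nat.Primes, ∀ n : ℕ,
      qCoeff (⇑g) ((ℓ : ℕ) * n) +
        e' ℓ * (if (ℓ : ℕ) ∣ n then qCoeff (⇑g) (n / (ℓ : ℕ)) else 0) =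
        lam ℓ * qCoeff (⇑g) n := by
    intro ℓ n
    have h1 := hrel ℓ n
    simp only [hc]
    split_ifs with hd
    · rw [if_pos hd] at h1
      linear_combination b1⁻¹ * h1
    · rw [if_neg hd] at h1
      linear_combination b1⁻¹ * h1
  have hlam_eq : ∀ ℓ : Nat.Primes, lam ℓ = qCoeff (⇑g) ℓ := by
    intro ℓ
    have h1 := hrelg ℓ 1
    rw [if_neg (Nat.Prime.not_dvd_one ℓ.2), mul_zero, add_zero, mul_one, hc1, mul_one] at h1
    exact h1.symm
  have hsys : FormalHecke.IsEigensystem e' (fun n => qCoeff (⇑g) n) := by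
    refine ⟨hc1, ?_⟩
    intro ℓ hℓ n
    have h1 := hrelg ⟨ℓ, hℓ⟩ n
    rw [hlam_eq ⟨ℓ, hℓ⟩] at h1
    exact h1
  have hrec := isRecursive_of_isEigensystem hsys
  refine ⟨g, ⟨hc1, hrec.2.1, ?_, ?_⟩, fun ℓ => (hlam_eq ℓ).symm⟩
  · intro p r hp hpN
    have := hrec.2.2 p r hp
    rw [he'] at this
    simp only [if_neg hpN] at this
    exact this
  · intro p r hp hpN
    have := hrec.2.2 p r hp
    rw [he'] at this
    simp only [if_pos hpN, zero_mul, sub_zero] at this
    exact this

/-- **WP-F, F1.** A nonzero simultaneous eigenvector `w ∈ V_M = Hom_PE(Γ₀(M), ℂ)` of all the Hecke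
operators `heckePE M ℓ ℂ ℂ` gives a normalised eigenform of level `M` whose `ℓ`-th coefficient is
the eigenvalue, for every prime `ℓ`. -/
theorem exists_normalizedEigenform_of_eigenvector {M : ℕ} [NeZero M] {w : VC M} (hw : w ≠ 0)
    (lam : Nat.Primes → ℂ) (h : ∀ ℓ : Nat.Primes, heckePE M ℓ ℂ ℂ w = lam ℓ • w) :
    ∃ g : CuspForm (Gamma0 M) 2, g.IsNormalizedEigenform ∧
      ∀ ℓ : Nat.Primes, ModularFormClass.qCoeff (⇑g) ℓ = lam ℓ := by
  obtain ⟨x, rfl⟩ := (periodEquiv M).surjective w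
  have hx : x ≠ 0 := fun hx0 => hw (by rw [hx0, map_zero])
  -- both components are simultaneous eigenvectors
  have hpair : ∀ ℓ : Nat.Primes, (heckeS2 M ℓ x.1, heckeS2 M ℓ x.2) = lam ℓ • x := by
    intro ℓ
    apply (periodEquiv M).injective
    rw [periodEquiv_hecke, map_smul]
    exact h ℓ
  have h1 : ∀ ℓ : Nat.Primes, heckeS2 M ℓ x.1 = lam ℓ • x.1 := fun ℓ =>
    congrArg Prod.fst (hpair ℓ)
  have h2 : ∀ ℓ : Nat.Primes, heckeS2 M ℓ x.2 = lam ℓ • x.2 := fun ℓ =>
    congrArg Prod.snd (hpair ℓ)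
  by_cases hx1 : x.1 = 0
  · have hx2 : x.2 ≠ 0 := fun hx2 => hx (Prod.ext hx1 hx2)
    exact exists_normalizedEigenform_of_heckeS2 hx2 lam h2
  · exact exists_normalizedEigenform_of_heckeS2 hx1 lam h1

end Fermat.Agent.S41.Asm
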