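/-
S41 — WP-F (assembly), part 1: the abstract Hecke ring `ℤ[X_ℓ]` acting on the complex spaces
`V_M = Hom_PE(Γ₀(M), ℂ)`, and the "good part" endomorphism of the abstract Hecke ring.
-/
import Mathlib
import Fermat.Agent.S41.Coh.CoreData

set_option autoImplicit false

open scoped MatrixGroups
open CongruenceSubgroup

namespace Fermat.Agent.S41.Asm

open Fermat.Agent.ESJ.ParHom Fermat.Agent.S41.Coh

noncomputable section

/-- The abstract Hecke ring (the Prelude's `ModularCurve.HeckeAlg`). -/
abbrev HA : Type := MvPolynomial Nat.Primes ℤ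

section rho

variable (M : ℕ) [NeZero M]

/-- The abstract Hecke ring acts on `V_M`: `X_ℓ` acts as `T_ℓ` (`ℓ ∤ M`) resp. `U_ℓ` (`ℓ ∣ M`). -/
def rho : HA →+* Module.End ℂ (VC M) :=
  ((periodEquiv M).conjRingEquiv.toRingHom).comp
    ((LinearMap.prodMapRingHom ℂ (CuspForm (Gamma0 M) 2) (CuspForm (Gamma0 M) 2)).comp
      (((RingHom.id (Module.End ℂ (CuspForm (Gamma0 M) 2))).prod (RingHom.id _)).comp
        ((CuspForm.heckeAlgebra M 2 ∅).val.toRingHom.comp (CuspForm.heckeEvalForms M 2))))

theorem rho_apply (t : HA) (x : CuspForm (Gamma0 M) 2 × CuspForm (Gamma0 M) 2) :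
    rho M t (periodEquiv M x) =
      periodEquiv M
        ((CuspForm.heckeEvalForms M 2 t : Module.End ℂ (CuspForm (Gamma0 M) 2)) x.1,
          (CuspForm.heckeEvalForms M 2 t : Module.End ℂ (CuspForm (Gamma0 M) 2)) x.2) := by
  simp [rho]

theorem rho_X (ℓ : Nat.Primes) : rho M (MvPolynomial.X ℓ) = heckePE M ℓ ℂ ℂ := by
  refine LinearMap.ext fun ψ => ?_
  obtain ⟨x, rfl⟩ := (periodEquiv M).surjective ψ
  rw [rho_apply, ← periodEquiv_hecke]
  have h : CuspForm.heckeEvalForms M 2 (MvPolynomial.X ℓ) = CuspForm.heckeFormsGen M 2 ℓ :=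
    CuspForm.heckeEvalForms_heckeGen M 2 ℓ
  rw [h]
  rfl

theorem rho_natCast_apply (n : ℕ) (x : VC M) : rho M (n : HA) x = n • x := by
  rw [map_natCast, Module.End.natCast_apply]

theorem rho_intCast_apply (n : ℤ) (x : VC M) : rho M (n : HA) x = n • x := by
  rw [map_intCast, Module.End.intCast_apply]

theorem rho_C_apply (n : ℤ) (x : VC M) : rho M (MvPolynomial.C n) x = n • x := by
  have h : (MvPolynomial.C n : HA) = (n : HA) := by
    rw [← map_intCast (MvPolynomial.C (R := ℤ) (σ := Nat.Primes)) n]; simp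
  rw [h, rho_intCast_apply]

/-- The Hecke ring preserves the integral lattice. -/
theorem rho_mem_latC (t : HA) {x : VC M} (hx : x ∈ latC M) : rho M t x ∈ latC M := by
  induction t using MvPolynomial.induction_on generalizing x with
  | C a =>
    rw [rho_C_apply]
    exact (latC M).smul_mem a hx
  | add s t hs ht =>
    rw [map_add, LinearMap.add_apply]
    exact (latC M).add_mem (hs hx) (ht hx)
  | mul_X t ℓ ht =>
    rw [map_mul, Module.End.mul_apply, rho_X]
    exact ht (heckePE_mem_latC M ℓ hx)

/-- The image of the abstract Hecke ring is commutative. -/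
theorem rho_commute (s t : HA) : Commute (rho M s) (rho M t) := by
  show rho M s * rho M t = rho M t * rho M s
  rw [← map_mul, ← map_mul, mul_comm]

end rho

section kap

variable (bad : Nat.Primes → Prop)

open Classical in
/-- The endomorphism of the abstract Hecke ring killing the generators at the bad primes. -/
def kap : HA →+* HA :=
  (MvPolynomial.aeval (fun ℓ : Nat.Primes => if bad ℓ then (0 : HA) else MvPolynomial.X ℓ)).toRingHom

theorem kap_X_of_bad {ℓ : Nat.Primes} (h : bad ℓ) : kap bad (MvPolynomial.X ℓ) = 0 := by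
  classical
  show MvPolynomial.aeval _ (MvPolynomial.X ℓ) = 0
  rw [MvPolynomial.aeval_X, if_pos h]

theorem kap_X_of_not_bad {ℓ : Nat.Primes} (h : ¬ bad ℓ) :
    kap bad (MvPolynomial.X ℓ) = MvPolynomial.X ℓ := by
  classical
  show MvPolynomial.aeval _ (MvPolynomial.X ℓ) = MvPolynomial.X ℓ
  rw [MvPolynomial.aeval_X, if_neg h]

theorem kap_C (a : ℤ) : kap bad (MvPolynomial.C a) = MvPolynomial.C a := by
  classical
  show MvPolynomial.aeval _ (MvPolynomial.C a) = MvPolynomial.C a
  rw [MvPolynomial.aeval_C]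
  rfl

/-- A linear map intertwining the good Hecke operators intertwines the action of the good part
of the abstract Hecke ring. -/
theorem intertwine {M M' : ℕ} [NeZero M] [NeZero M'] (A : VC M →ₗ[ℂ] VC M')
    (hA : ∀ r : Nat.Primes, ¬ bad r → ∀ x, A (heckePE M r ℂ ℂ x) = heckePE M' r ℂ ℂ (A x))
    (t : HA) (x : VC M) : A (rho M (kap bad t) x) = rho M' (kap bad t) (A x) := by
  induction t using MvPolynomial.induction_on generalizing x with
  | C a =>
    rw [kap_C, rho_C_apply, rho_C_apply, map_zsmul]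
  | add s t hs ht =>
    rw [map_add, map_add, LinearMap.add_apply, map_add, hs, ht, map_add, LinearMap.add_apply]
  | mul_X t ℓ ht =>
    rw [map_mul]
    by_cases hb : bad ℓ
    · rw [kap_X_of_bad bad hb, mul_zero, map_zero, map_zero, LinearMap.zero_apply, map_zero,
        LinearMap.zero_apply]
    · rw [kap_X_of_not_bad bad hb, map_mul, map_mul, Module.End.mul_apply, Module.End.mul_apply,
        rho_X, rho_X, ht, hA ℓ hb]

end kap

end

end Fermat.Agent.S41.Asm
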