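/-
S41 — WP-F (assembly), part 2: Ribet's level raising from
* `Core.exists_new_eigenvector` (abstract Ribet algebra + Deligne–Serre lifting),
* the cohomological operators of `S41/Coh` and the Eichler–Shimura dictionary of ESJ,
* Ihara's lemma (`Ihara.Eis.IharaKills`, a hypothesis here),
* dual Ihara modulo `p` (`DualIharaModP`, a hypothesis here),
* the extraction of a normalised eigenform from a Hecke eigenvector (`EigenformOfEigenvector`,
  a hypothesis here),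
* the non-Eisenstein prime of `EC/FrobFixed`.
-/
import Mathlib
import Fermat.Agent.S41.Core
import Fermat.Agent.S41.DualIhara
import Fermat.Agent.S41.Coh.Commute
import Fermat.Agent.S41.Ihara.Eisenstein
import Fermat.Agent.S41.Asm.Rho
import Fermat.Agent.EC.FrobFixed.NonEisensteinFinal
import Fermat.Prelude.Def_FLTPrelim_ModularRep
import Fermat.Prelude.Def_FreyPackage_LevelRaising

set_option autoImplicit false

open scoped MatrixGroups
open CongruenceSubgroup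

namespace Fermat.Agent.S41.Asm

open Fermat.Agent.ESJ.ParHom Fermat.Agent.S41.Coh Fermat.Agent.ESJ.Rep

noncomputable section

/-- **Dual Ihara modulo `p`**: for every prime `ℓ ∤ N q`, the cokernel of
`(cor, cor ∘ w) : Hom_PE(Γ₀(N q), 𝔽_p) → Hom_PE(Γ₀(N), 𝔽_p)²` is killed by `T_ℓ - (ℓ + 1)`. -/
def DualIharaModP (N q p : ℕ) [NeZero q] : Prop :=
  ∀ ℓ : Nat.Primes, ¬ (ℓ : ℕ) ∣ N * q → ∀ a b : peHoms (Gamma0 N) (ZMod p) (ZMod p),
    ∃ z : peHoms (Gamma0 (N * q)) (ZMod p) (ZMod p),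
      heckePE N ℓ (ZMod p) (ZMod p) a - ((ℓ : ℕ) + 1) • a = corPE N q (ZMod p) (ZMod p) z ∧
      heckePE N ℓ (ZMod p) (ZMod p) b - ((ℓ : ℕ) + 1) • b =
        corPE N q (ZMod p) (ZMod p) (wPE N q (ZMod p) (ZMod p) z)

/-- A nonzero simultaneous eigenvector of all `T_ℓ`, `U_ℓ` in `V_M` gives a normalised eigenform
with the eigenvalues as prime coefficients. -/
def EigenformOfEigenvector (M : ℕ) [NeZero M] : Prop :=
  ∀ w : VC M, w ≠ 0 → ∀ lam : Nat.Primes → ℂ, (∀ ℓ : Nat.Primes, heckePE M ℓ ℂ ℂ w = lam ℓ • w) →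
    ∃ g : CuspForm (Gamma0 M) 2, g.IsNormalizedEigenform ∧
      ∀ ℓ : Nat.Primes, ModularFormClass.qCoeff (⇑g) ℓ = lam ℓ

/-- An integer prime to `p` is not in a maximal ideal containing `p`. -/
theorem intCast_notMem_of_not_dvd {p : ℕ} (hp : p.Prime) (𝔪 : Ideal (integralClosure ℤ ℂ))
    (hmax : 𝔪.IsMaximal) (hpm : (p : integralClosure ℤ ℂ) ∈ 𝔪) {n : ℤ} (hn : ¬ (p : ℤ) ∣ n) :
    (n : integralClosure ℤ ℂ) ∉ 𝔪 := by
  intro h
  have hcop : IsCoprime (p : ℤ) n :=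
    (Nat.prime_iff_prime_int.mp hp).coprime_iff_not_dvd.mpr hn
  obtain ⟨a, b, hab⟩ := hcop
  apply hmax.ne_top
  rw [Ideal.eq_top_iff_one]
  have e : (1 : integralClosure ℤ ℂ) = (a : integralClosure ℤ ℂ) * (p : integralClosure ℤ ℂ)
      + (b : integralClosure ℤ ℂ) * (n : integralClosure ℤ ℂ) := by
    have := congrArg (Int.cast : ℤ → integralClosure ℤ ℂ) hab
    push_cast at this
    exact this.symm
  rw [e]
  exact 𝔪.add_mem (𝔪.mul_mem_left _ hpm) (𝔪.mul_mem_left _ h)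

section generators

variable {N q : ℕ} [Fact q.Prime]

omit [Fact q.Prime] in
/-- `res` intertwines `T_r`, `r ∤ N q`. -/
theorem resPE_heckePE (r : Nat.Primes) (hr : ¬ (r : ℕ) ∣ N * q) (x : VC N) :
    resPE N q ℂ ℂ (heckePE N r ℂ ℂ x) = heckePE (N * q) r ℂ ℂ (resPE N q ℂ ℂ x) := by
  have : Fact (r : ℕ).Prime := ⟨r.2⟩
  exact Subtype.ext (resCoh_heckeCoh (ℓ := (r : ℕ)) hr _)

/-- `w` commutes with `T_r`, `r ∤ N q`. -/
theorem wPE_heckePE (hqN : ¬ q ∣ N) (r : Nat.Primes) (hr : ¬ (r : ℕ) ∣ N * q) (x : VC (N * q)) :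
    wPE N q ℂ ℂ (heckePE (N * q) r ℂ ℂ x) = heckePE (N * q) r ℂ ℂ (wPE N q ℂ ℂ x) := by
  have : Fact (r : ℕ).Prime := ⟨r.2⟩
  exact Subtype.ext (wCoh_heckeCoh (ℓ := (r : ℕ)) hqN hr _)

/-- `cor` intertwines `T_r`, `r ∤ N q`. -/
theorem corPE_heckePE (hqN : ¬ q ∣ N) (r : Nat.Primes) (hr : ¬ (r : ℕ) ∣ N * q)
    (x : VC (N * q)) :
    corPE N q ℂ ℂ (heckePE (N * q) r ℂ ℂ x) = heckePE N r ℂ ℂ (corPE N q ℂ ℂ x) := by
  have : Fact (r : ℕ).Prime := ⟨r.2⟩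
  refine Subtype.ext (corCoh_heckeCoh (ℓ := (r : ℕ)) hqN hr (R := ℂ) ?_ x.2)
  intro c hc
  rw [nsmul_eq_mul] at hc
  rcases mul_eq_zero.mp hc with h | h
  · exact absurd h (by exact_mod_cast Nat.succ_ne_zero q)
  · exact h

end generators

section eigen

variable {N : ℕ} [NeZero N] {f : CuspForm (Gamma0 N) 2}

/-- The eigencharacter of a normalised eigenform on the abstract Hecke ring. -/
def thetaN (hf : f.IsNormalizedEigenform) : HA →+* integralClosure ℤ ℂ :=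
  (EigChar.chi hf).comp (CuspForm.heckeEvalForms N 2)

theorem rho_eigVec (hf : f.IsNormalizedEigenform) (t : HA) :
    rho N t (eigVec N f) = ((thetaN hf t : integralClosure ℤ ℂ) : ℂ) • eigVec N f := by
  unfold eigVec
  rw [rho_apply, ← map_smul]
  congr 1
  have h := EigChar.apply_eq_chiC_smul hf (CuspForm.heckeEvalForms N 2 t)
  show ((CuspForm.heckeEvalForms N 2 t : Module.End ℂ (CuspForm (Gamma0 N) 2)) f,
      (CuspForm.heckeEvalForms N 2 t : Module.End ℂ (CuspForm (Gamma0 N) 2)) 0) = _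
  rw [h, map_zero]
  show _ = ((EigChar.chi hf (CuspForm.heckeEvalForms N 2 t) : integralClosure ℤ ℂ) : ℂ)
    • ((f, 0) : CuspForm (Gamma0 N) 2 × CuspForm (Gamma0 N) 2)
  rw [EigChar.coe_chi, Prod.smul_mk, smul_zero]

theorem thetaN_X (hf : f.IsNormalizedEigenform) (r : Nat.Primes) :
    ((thetaN hf (MvPolynomial.X r) : integralClosure ℤ ℂ) : ℂ)
      = ModularFormClass.qCoeff (⇑f) r := by
  show ((EigChar.chi hf (CuspForm.heckeEvalForms N 2 (MvPolynomial.X r)) :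
    integralClosure ℤ ℂ) : ℂ) = _
  rw [EigChar.coe_chi]
  have h : CuspForm.heckeEvalForms N 2 (MvPolynomial.X r) = CuspForm.heckeFormsGen N 2 r :=
    CuspForm.heckeEvalForms_heckeGen N 2 r
  rw [h, EigChar.chiC_heckeFormsGen]

end eigen

/-- **Ribet's level raising (S41), modulo Ihara's lemma, dual Ihara modulo `p` and the
extraction of eigenforms.** -/
theorem main
    (E : WeierstrassCurve ℚ) [E.IsElliptic] {W : WeierstrassCurve ℤ} (hW : W.IsIntegralModelOf E)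
    {p N q' : ℕ} (hp : p.Prime) (hN : 0 < N) (hq' : q'.Prime) (hq'N : ¬ q' ∣ N)
    (hirr : WeierstrassCurve.Affine.Point.GaloisRepIsIrreducible (K := AlgebraicClosure ℚ) ℚ E p)
    [NeZero q'] [NeZero (N * q')]
    (hI : Ihara.Eis.IharaKills N q' (ZMod p))
    (hD : DualIharaModP N q' p)
    (hF : EigenformOfEigenvector (N * q'))
    (f : CuspForm (Gamma0 N) 2) (𝔪 : Ideal (integralClosure ℤ ℂ))
    (hf : f.IsNormalizedEigenform) (hmax : 𝔪.IsMaximal) (hpm : (p : integralClosure ℤ ℂ) ∈ 𝔪)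
    (hcong : ∀ ℓ : ℕ, ℓ.Prime → W.IsGoodPrimeFor ℓ → ¬ ℓ ∣ N → ℓ ≠ p →
      ∃ a : integralClosure ℤ ℂ, (a : ℂ) = ModularFormClass.qCoeff f ℓ ∧
        a - ((W.apOfModel ℓ : ℤ) : integralClosure ℤ ℂ) ∈ 𝔪)
    (hLR : ∃ a : integralClosure ℤ ℂ, (a : ℂ) = ModularFormClass.qCoeff f q' ∧
      a ^ 2 - ((q' : integralClosure ℤ ℂ) + 1) ^ 2 ∈ 𝔪) :
    ∃ (g : CuspForm (Gamma0 (N * q')) 2) (𝔪' : Ideal (integralClosure ℤ ℂ)),
      g.IsNormalizedEigenform ∧ 𝔪'.IsMaximal ∧ (p : integralClosure ℤ ℂ) ∈ 𝔪' ∧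
      (∀ ℓ : ℕ, ℓ.Prime → W.IsGoodPrimeFor ℓ → ¬ ℓ ∣ N * q' → ℓ ≠ p →
        ∃ a : integralClosure ℤ ℂ, (a : ℂ) = ModularFormClass.qCoeff g ℓ ∧
          a - ((W.apOfModel ℓ : ℤ) : integralClosure ℤ ℂ) ∈ 𝔪') ∧
      g.IsNewAt q' := by
  classical
  have : NeZero N := ⟨hN.ne'⟩
  have : Fact q'.Prime := ⟨hq'⟩
  have := hmax
  -- the auxiliary non-Eisenstein prime
  obtain ⟨ℓ, hℓ, hℓS, hℓp, hℓgood, hℓnd⟩ :=
    Fermat.Agent.EC.FrobFixed.exists_good_prime_not_dvd E hW hp hirr (N * q').primeFactors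
  have hℓNq : ¬ ℓ ∣ N * q' := fun h =>
    hℓS (Nat.mem_primeFactors.mpr ⟨hℓ, h, NeZero.ne _⟩)
  have hℓN : ¬ ℓ ∣ N := fun h => hℓNq (h.mul_right q')
  have : Fact ℓ.Prime := ⟨hℓ⟩
  let ℓP : Nat.Primes := ⟨ℓ, hℓ⟩
  let qP : Nat.Primes := ⟨q', hq'⟩
  let bad : Nat.Primes → Prop := fun r => (r : ℕ) ∣ N * q'
  let κ : HA →+* HA := kap bad
  let e : HA := MvPolynomial.X ℓP - MvPolynomial.C (((ℓ + 1 : ℕ) : ℤ))
  have hκe : κ e = e := by
    show kap bad (MvPolynomial.X ℓP - MvPolynomial.C (((ℓ + 1 : ℕ) : ℤ))) = _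
    rw [map_sub, kap_X_of_not_bad bad (show ¬ bad ℓP from hℓNq), kap_C]
  have hρe : ∀ x : VC N, ((rho N).comp κ) e x = heckePE N ℓP ℂ ℂ x - (ℓ + 1) • x := by
    intro x
    show rho N (κ e) x = _
    rw [hκe]
    show rho N (MvPolynomial.X ℓP - MvPolynomial.C (((ℓ + 1 : ℕ) : ℤ))) x = _
    rw [map_sub, LinearMap.sub_apply, rho_X, rho_C_apply, natCast_zsmul]
  -- the eigencharacter of `f`
  let θ₀ : HA →+* integralClosure ℤ ℂ := thetaN hf
  have hθ₀C : ∀ a : ℤ, θ₀ (MvPolynomial.C a) = (a : integralClosure ℤ ℂ) := fun a =>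
    eq_intCast (θ₀.comp MvPolynomial.C) a
  -- the level raising congruence
  have hLR' : θ₀ (MvPolynomial.X qP) ^ 2 - ((((q' + 1 : ℕ) : ℤ) : integralClosure ℤ ℂ)) ^ 2 ∈ 𝔪 := by
    obtain ⟨a, ha, ha2⟩ := hLR
    have haeq : a = θ₀ (MvPolynomial.X qP) := Subtype.ext (ha.trans (thetaN_X hf qP).symm)
    rw [← haeq]
    have e1 : ((((q' + 1 : ℕ) : ℤ) : integralClosure ℤ ℂ)) = (q' : integralClosure ℤ ℂ) + 1 := by
      push_cast; rfl
    rw [e1]
    exact ha2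
  -- `θ e ∉ 𝔪`
  have he : (θ₀.comp κ) e ∉ 𝔪 := by
    show θ₀ (κ e) ∉ 𝔪
    rw [hκe]
    show θ₀ (MvPolynomial.X ℓP - MvPolynomial.C (((ℓ + 1 : ℕ) : ℤ))) ∉ 𝔪
    rw [map_sub, hθ₀C]
    obtain ⟨a, ha, hacong⟩ := hcong ℓ hℓ hℓgood hℓN hℓp
    have haeq : a = θ₀ (MvPolynomial.X ℓP) := Subtype.ext (ha.trans (thetaN_X hf ℓP).symm)
    rw [← haeq]
    intro hmem
    apply intCast_notMem_of_not_dvd hp 𝔪 hmax hpm hℓnd
    have e1 : (((ℓ : ℤ) + 1 - W.apOfModel ℓ : ℤ) : integralClosure ℤ ℂ)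
        = (a - ((W.apOfModel ℓ : ℤ) : integralClosure ℤ ℂ))
          - (a - ((((ℓ + 1 : ℕ) : ℤ)) : integralClosure ℤ ℂ)) := by
      push_cast; ring
    rw [e1]
    exact 𝔪.sub_mem hacong hmem
  -- Ihara's lemma on the lattices
  have ihara : ∀ x ∈ latC N, ∀ y ∈ latC N,
      (∃ z ∈ latC (N * q'), resPE N q' ℂ ℂ x + ((wPE N q' ℂ ℂ).comp (resPE N q' ℂ ℂ)) y
        = (p : ℤ) • z) →
      (∃ x' ∈ latC N, ((rho N).comp κ) e x = (p : ℤ) • x') ∧
        ∃ y' ∈ latC N, ((rho N).comp κ) e y = (p : ℤ) • y' := by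
    intro x hx y hy ⟨z, hz, hxy⟩
    obtain ⟨φ, rfl⟩ := mem_latC.mp hx
    obtain ⟨ψ, rfl⟩ := mem_latC.mp hy
    obtain ⟨ζ, rfl⟩ := mem_latC.mp hz
    have h1 : resPE N q' ℤ ℤ φ + wPE N q' ℤ ℤ (resPE N q' ℤ ℤ ψ) = (p : ℤ) • ζ := by
      apply castPE_injective (N * q') ℂ
      rw [map_add, castPE_resPE, castPE_wPE, castPE_resPE, map_zsmul]
      exact hxy
    have h2 : resCoh N q' (φ : Additive (Gamma0 N) →+ ℤ)
        + wCoh N q' (resCoh N q' (ψ : Additive (Gamma0 N) →+ ℤ))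
        = (p : ℤ) • (ζ : Additive (Gamma0 (N * q')) →+ ℤ) := congrArg Subtype.val h1
    obtain ⟨⟨x', hx'pe, hx'⟩, ⟨y', hy'pe, hy'⟩⟩ :=
      Ihara.Eis.ihara_int_pe hq'N hp.ne_zero hI hℓN (φ : Additive (Gamma0 N) →+ ℤ)
        (ψ : Additive (Gamma0 N) →+ ℤ) φ.2 ψ.2 (ζ : Additive (Gamma0 (N * q')) →+ ℤ) h2
    have key : ∀ (χ : HPE N) (χ' : Additive (Gamma0 N) →+ ℤ) (hχ' : IsPEHom (Gamma0 N) χ'),
        heckeCoh N ⟨ℓ, Fact.out⟩ (χ : Additive (Gamma0 N) →+ ℤ)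
          - (ℓ + 1) • (χ : Additive (Gamma0 N) →+ ℤ) = (p : ℤ) • χ' →
        ((rho N).comp κ) e (castPE N ℂ χ) = (p : ℤ) • castPE N ℂ ⟨χ', hχ'⟩ := by
      intro χ χ' hχ' h
      rw [hρe, ← castPE_heckePE, ← map_nsmul, ← map_sub, ← map_zsmul]
      congr 1
      exact Subtype.ext h
    exact ⟨⟨_, castPE_mem_latC _, key φ x' hx'pe hx'⟩, ⟨_, castPE_mem_latC _, key ψ y' hy'pe hy'⟩⟩
  -- dual Ihara on the lattices
  have dual : ∀ x ∈ latC N, ∀ y ∈ latC N, ∃ z ∈ latC (N * q'), ∃ x' ∈ latC N, ∃ y' ∈ latC N,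
      ((rho N).comp κ) e x = corPE N q' ℂ ℂ z + (p : ℤ) • x' ∧
      ((rho N).comp κ) e y = ((corPE N q' ℂ ℂ).comp (wPE N q' ℂ ℂ)) z + (p : ℤ) • y' := by
    refine DualIhara.dual_of_reduction (latC N) (latC (N * q')) p (corPE N q' ℂ ℂ)
      ((corPE N q' ℂ ℂ).comp (wPE N q' ℂ ℂ)) (((rho N).comp κ) e)
      (fun x hx => rho_mem_latC N _ hx) (redP N p) (redP (N * q') p)
      (fun x h => exists_eq_smul_of_redP_eq_zero x h) (redP_surjective (N * q') p)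
      (corPE N q' (ZMod p) (ZMod p))
      (fun z => corPE N q' (ZMod p) (ZMod p) (wPE N q' (ZMod p) (ZMod p) z))
      (fun a => heckePE N ℓP (ZMod p) (ZMod p) a - (ℓ + 1) • a)
      (fun z hz => corPE_mem_latC N q' hz)
      (fun z hz => corPE_mem_latC N q' (wPE_mem_latC N q' hz))
      (fun z h => redP_corPE N q' p z h) ?_ ?_ (hD ℓP hℓNq)
    · intro z h
      have hw : wPE N q' ℂ ℂ (z : VC (N * q')) ∈ latC (N * q') := wPE_mem_latC N q' z.2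
      have h3 := redP_corPE N q' p ⟨_, hw⟩ h
      rw [redP_wPE N q' p z hw] at h3
      exact h3
    · intro x h
      have hh : heckePE N ℓP ℂ ℂ (x : VC N) ∈ latC N := heckePE_mem_latC N ℓP x.2
      have e1 : (⟨((rho N).comp κ) e (x : VC N), h⟩ : latC N)
          = ⟨heckePE N ℓP ℂ ℂ (x : VC N), hh⟩ - (ℓ + 1) • x := Subtype.ext (hρe _)
      rw [e1, map_sub, map_nsmul, redP_heckePE N p ℓP x hh]
  -- Ribet's algebra
  obtain ⟨w, θ', 𝔪', hw, hθ', hmax', hp', hcong', hu2⟩ :=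
    Core.exists_new_eigenvector (T₀ := HA) (T := HA) κ ((rho N).comp κ) (rho (N * q'))
      (rho N (MvPolynomial.X qP)) (fun t => rho_commute N _ _)
      (latC N) (latC_fg N) (span_latC N)
      (fun t x hx => rho_mem_latC N _ hx) (fun x hx => rho_mem_latC N _ hx)
      (latC (N * q')) (latC_fg (N * q')) (fun t z hz => rho_mem_latC (N * q') _ hz)
      (resPE N q' ℂ ℂ) ((wPE N q' ℂ ℂ).comp (resPE N q' ℂ ℂ))
      (corPE N q' ℂ ℂ) ((corPE N q' ℂ ℂ).comp (wPE N q' ℂ ℂ))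
      (fun x hx => resPE_mem_latC N q' hx)
      (fun x hx => wPE_mem_latC N q' (resPE_mem_latC N q' hx))
      (fun z hz => corPE_mem_latC N q' hz)
      (fun z hz => corPE_mem_latC N q' (wPE_mem_latC N q' hz))
      (fun t x _ => intertwine bad (resPE N q' ℂ ℂ) (fun r hr x => resPE_heckePE r hr x) t x)
      (fun t x _ => intertwine bad ((wPE N q' ℂ ℂ).comp (resPE N q' ℂ ℂ)) (fun r hr x => by
        show wPE N q' ℂ ℂ (resPE N q' ℂ ℂ (heckePE N r ℂ ℂ x)) = _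
        rw [resPE_heckePE r hr, wPE_heckePE hq'N r hr]
        rfl) t x)
      (fun t z _ => intertwine bad (corPE N q' ℂ ℂ)
        (fun r hr x => corPE_heckePE hq'N r hr x) t z)
      (fun t z _ => intertwine bad ((corPE N q' ℂ ℂ).comp (wPE N q' ℂ ℂ)) (fun r hr x => by
        show corPE N q' ℂ ℂ (wPE N q' ℂ ℂ (heckePE (N * q') r ℂ ℂ x)) = _
        rw [wPE_heckePE hq'N r hr, corPE_heckePE hq'N r hr]
        rfl) t z)
      (((q' + 1 : ℕ) : ℤ))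
      (fun x _ => by rw [corPE_resPE ℂ ℂ hq'N, natCast_zsmul])
      (fun x _ => by
        show corPE N q' ℂ ℂ (wPE N q' ℂ ℂ (wPE N q' ℂ ℂ (resPE N q' ℂ ℂ x))) = _
        rw [corPE_wPE_wPE_resPE ℂ ℂ hq'N, natCast_zsmul])
      (fun x _ => by
        show corPE N q' ℂ ℂ (wPE N q' ℂ ℂ (resPE N q' ℂ ℂ x)) = _
        rw [corPE_wPE_resPE ℂ ℂ hq'N, rho_X])
      (fun x _ => by
        show corPE N q' ℂ ℂ (wPE N q' ℂ ℂ (resPE N q' ℂ ℂ x)) = _
        rw [corPE_wPE_resPE ℂ ℂ hq'N, rho_X])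
      (MvPolynomial.X qP)
      (fun z _ h1 h2 => by
        rw [rho_X]
        exact heckePE_heckePE_of_corPE_eq_zero ℂ ℂ hq'N z h1 h2)
      p hp.ne_zero
      (eigVec N f) (eigVec_ne_zero hf.ne_zero) (θ₀.comp κ)
      (fun t => rho_eigVec hf (κ t))
      (θ₀ (MvPolynomial.X qP)) (rho_eigVec hf (MvPolynomial.X qP))
      𝔪 hpm hLR' e e he he ihara dual
  -- the eigenform
  obtain ⟨g, hg, hgcoef⟩ := hF w hw
    (fun r => ((θ' (MvPolynomial.X r) : integralClosure ℤ ℂ) : ℂ))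
    (fun r => by rw [← rho_X]; exact hθ' (MvPolynomial.X r))
  have hθ'C : ∀ a : ℤ, θ' (MvPolynomial.C a) = (a : integralClosure ℤ ℂ) := fun a =>
    eq_intCast (θ'.comp MvPolynomial.C) a
  refine ⟨g, 𝔪', hg, hmax', hp', ?_, ?_⟩
  · intro r hr hrgood hrNq hrp
    let rP : Nat.Primes := ⟨r, hr⟩
    refine ⟨θ' (MvPolynomial.X rP), (hgcoef rP).symm, ?_⟩
    have hrN : ¬ r ∣ N := fun h => hrNq (h.mul_right q')
    obtain ⟨a, ha, hacong⟩ := hcong r hr hrgood hrN hrp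
    have haeq : a = θ₀ (MvPolynomial.X rP) := Subtype.ext (ha.trans (thetaN_X hf rP).symm)
    have hκ : κ (MvPolynomial.X rP - MvPolynomial.C (W.apOfModel r))
        = MvPolynomial.X rP - MvPolynomial.C (W.apOfModel r) := by
      show kap bad _ = _
      rw [map_sub, kap_X_of_not_bad bad (show ¬ bad rP from hrNq), kap_C]
    have h1 := hcong' (MvPolynomial.X rP - MvPolynomial.C (W.apOfModel r)) (by
      show θ₀ (κ _) ∈ 𝔪
      rw [hκ, map_sub, hθ₀C, ← haeq]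
      exact hacong)
    rw [hκ, map_sub, hθ'C] at h1
    exact h1
  · show ModularFormClass.qCoeff (⇑g) q' ^ 2 = 1
    have h1 := hgcoef qP
    have h2 := congrArg (fun z : integralClosure ℤ ℂ => (z : ℂ)) hu2
    simp only [Subalgebra.coe_pow, Subalgebra.coe_one] at h2
    rw [← h2, ← h1]

end

end Fermat.Agent.S41.Asm
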